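import Fermat.Agent.S55.Local.Spec
import Fermat.Agent.S55.L.C1aH954

/-!
# S55, layer L (core of helper715), piece **T4**: `CyclicH2CardStatement → H2CardDvdStatement`
(helper954)

`|H²(Gal(L/K), Lˣ)|` divides `[L : K]` for every finite Galois extension of local fields, from the
cyclic case: Sylow reduction (`card_H2_dvd_card_of_sylow`), `p`-group induction along a normal
subgroup of index `p` (inflation–restriction in degree `2`, Hilbert 90), Galois correspondence
(`transportIso`, `quotTransportIso`).
-/

set_option autoImplicit false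
set_option linter.unusedSectionVars false
set_option linter.style.haveILetI false

namespace Fermat.Agent.S55.Local.H954

open groupCohomology CategoryTheory IntermediateField Fermat.Agent.S55.Local
  Fermat.Agent.S55.L Fermat.Agent.S55.L.H954 Fermat.Agent.S55.H954

section

/-- The `p`-group case of T4. -/
theorem h2_card_dvd_of_pgroup_local
    (A F : Type) [CommRing A] [IsDomain A] [IsDiscreteValuationRing A]
    [IsAdicComplete (IsLocalRing.maximalIdeal A) A] [Finite (IsLocalRing.ResidueField A)]
    [Field F] [CharZero F] [Algebra A F] [IsFractionRing A F]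
    (hcyc : CyclicH2CardStatement) (p : ℕ) [hp : Fact p.Prime] :
    ∀ (n : ℕ) (K : Type) [Field K] [Algebra F K] [FiniteDimensional F K]
      (L : Type) [Field L] [Algebra F L] [Algebra K L] [IsScalarTower F K L]
      [FiniteDimensional K L] [IsGalois K L], Nat.card (L ≃ₐ[K] L) = p ^ n →
      Finite (H2 (unitsRep K L)) ∧ Nat.card (H2 (unitsRep K L)) ∣ p ^ n := by
  intro n
  induction n with
  | zero =>
    intro K _ _ _ L _ _ _ _ _ _ hG
    rw [pow_zero] at hG
    have hz : ∀ x : H2 (unitsRep K L), x = 0 := H2_eq_zero_of_card_eq_one (unitsRep K L) hG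
    haveI : Subsingleton (H2 (unitsRep K L)) := ⟨fun a b => (hz a).trans (hz b).symm⟩
    refine ⟨inferInstance, ?_⟩
    rw [Nat.card_unique]
    exact one_dvd _
  | succ n ih =>
    intro K _ _ _ L _ _ _ _ _ _ hG
    obtain ⟨N, hN⟩ := Sylow.exists_subgroup_card_pow_prime (G := L ≃ₐ[K] L) p (n := n)
      (by rw [hG]; exact pow_dvd_pow p (Nat.le_succ n))
    have hidx : N.index = p := by
      have h := N.card_mul_index
      rw [hN, hG, pow_succ] at h
      exact Nat.eq_of_mul_eq_mul_left (pow_pos hp.out.pos n) h
    haveI hNn : N.Normal := Subgroup.normal_of_index_eq_minFac_card (by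
      rw [hidx, hG, Nat.pow_minFac (Nat.succ_ne_zero n), hp.out.minFac_eq])
    -- the intermediate field is a local field
    haveI : FiniteDimensional F (fixedField N) := FiniteDimensional.trans F K (fixedField N)
    haveI : IsScalarTower F (fixedField N) L := IsScalarTower.of_algebraMap_eq (fun _ => rfl)
    -- the top layer `L / F`
    haveI : IsGalois (fixedField N) L := IsGalois.tower_top_of_isGalois K _ L
    have IH := ih (fixedField N) L ((card_aut_fixedField K L N).trans hN)
    have hNc : Finite (H2 (Rep.res N.subtype (unitsRep K L))) ∧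
        Nat.card (H2 (Rep.res N.subtype (unitsRep K L))) ∣ p ^ n :=
      finite_and_card_of_addEquiv (transportAddEquiv K L N 2) IH
    -- the bottom layer, cyclic of degree `p`
    have hq : Nat.card ((fixedField N) ≃ₐ[K] (fixedField N)) = p := by
      rw [← Nat.card_congr (IsGalois.normalAutEquivQuotient N).toEquiv,
        ← Subgroup.index_eq_card]
      exact hidx
    haveI : IsCyclic ((fixedField N) ≃ₐ[K] (fixedField N)) := isCyclic_of_prime_card hq
    have hQc : Nat.card (H2 (unitsRep K (fixedField N))) = p := by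
      have := hcyc A F K (fixedField N) inferInstance
      rw [← IsGalois.card_aut_eq_finrank, hq] at this
      exact this
    have hQf : Finite (H2 (unitsRep K (fixedField N))) :=
      Nat.finite_of_card_ne_zero (by rw [hQc]; exact hp.out.ne_zero)
    have hQ : Finite (H2 ((unitsRep K L).quotientToInvariants N)) ∧
        Nat.card (H2 ((unitsRep K L).quotientToInvariants N)) ∣ p :=
      finite_and_card_of_addEquiv (quotTransportIso K L N 2).toLinearEquiv.toAddEquiv
        ⟨hQf, hQc ▸ dvd_rfl⟩
    obtain ⟨hfin, hdvd⟩ := H2_card_dvd_mul_of_normal (unitsRep K L) N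
      (H1_res_eq_zero K L N) hNc.1 hQ.1 hNc.2 hQ.2
    refine ⟨hfin, ?_⟩
    rw [pow_succ, mul_comm]
    exact hdvd

end

/-- **T4** (`H2CardDvdStatement`) from the cyclic case **T3'**. -/
theorem h2CardDvd_of_cyclicH2Card (hcyc : CyclicH2CardStatement) : H2CardDvdStatement := by
  intro A F _ _ _ _ _ _ _ _ _ K _ _ _ L _ _ _ _ _ _
  have key : Finite (H2 (unitsRep K L)) ∧
      Nat.card (H2 (unitsRep K L)) ∣ Nat.card (L ≃ₐ[K] L) := by
    refine card_H2_dvd_card_of_sylow (unitsRep K L) (fun p hp _ => ?_)
    haveI : Fact p.Prime := ⟨hp⟩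
    obtain ⟨P⟩ : Nonempty (Sylow p (L ≃ₐ[K] L)) := inferInstance
    refine ⟨P, ?_⟩
    have hP : Nat.card (P : Subgroup (L ≃ₐ[K] L)) =
        p ^ ((Nat.card (L ≃ₐ[K] L)).factorization p) := Sylow.card_eq_multiplicity P
    haveI : FiniteDimensional F (fixedField (P : Subgroup (L ≃ₐ[K] L))) :=
      FiniteDimensional.trans F K _
    haveI : IsScalarTower F (fixedField (P : Subgroup (L ≃ₐ[K] L))) L :=
      IsScalarTower.of_algebraMap_eq (fun _ => rfl)
    haveI : IsGalois (fixedField (P : Subgroup (L ≃ₐ[K] L))) L :=
      IsGalois.tower_top_of_isGalois K _ L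
    have h := h2_card_dvd_of_pgroup_local A F hcyc p _
      (fixedField (P : Subgroup (L ≃ₐ[K] L))) L ((card_aut_fixedField K L _).trans hP)
    rw [hP]
    exact finite_and_card_of_addEquiv (transportAddEquiv K L _ 2) h
  rw [← IsGalois.card_aut_eq_finrank]
  exact key.2

end Fermat.Agent.S55.Local.H954
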